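import Fermat.Agent.S55.Local.Spec

/-!
# S55 layer L, piece UR3 (helper294): valuation-theoretic preliminaries

Elementary consequences of `IsUnif` / `IsUnram` (interface of `Defs.lean`): if `ϖ` is a uniformizer
of `L`, every nonzero element of `L` is `ϖ ^ n * unit`, the integers are exactly the elements with
`n ≥ 0`, etc.  No number theory here.
-/

set_option autoImplicit false

namespace Fermat.Agent.S55.Local.H294

open Polynomial

section Val

variable {A F : Type} [CommRing A] [Field F] [Algebra A F]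
variable {L : Type} [Field L] [Algebra F L]

lemma toL_eq_comp (K : Type) [Field K] [Algebra F K] [Algebra K L] [IsScalarTower F K L] :
    toL A F L = (algebraMap K L).comp (toL A F K) := by
  ext a
  simp [toL, IsScalarTower.algebraMap_apply F K L]

/-- Integrality over `A` is intrinsic: it can be tested in a subfield. -/
lemma isInt_algebraMap_iff {K : Type} [Field K] [Algebra F K] [Algebra K L] [IsScalarTower F K L]
    (y : K) : IsInt A F L (algebraMap K L y) ↔ IsInt A F K y := by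
  unfold IsInt
  rw [toL_eq_comp (A := A) (F := F) (L := L) K]
  constructor
  · rintro ⟨p, hp, h⟩
    refine ⟨p, hp, ?_⟩
    rw [← Polynomial.hom_eval₂] at h
    exact (algebraMap K L).injective (by rw [h, map_zero])
  · rintro ⟨p, hp, h⟩
    refine ⟨p, hp, ?_⟩
    rw [← Polynomial.hom_eval₂, h, map_zero]

/-- Field automorphisms over a subfield preserve integrality. -/
lemma isInt_algEquiv {K : Type} [Field K] [Algebra F K] [Algebra K L] [IsScalarTower F K L]
    (σ : L ≃ₐ[K] L) {x : L} (hx : IsInt A F L x) : IsInt A F L (σ x) := by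
  obtain ⟨p, hp, h⟩ := hx
  refine ⟨p, hp, ?_⟩
  have hσ : (σ : L →+* L).comp (toL A F L) = toL A F L := by
    ext a
    simp only [RingHom.coe_comp, Function.comp_apply, toL_apply]
    rw [IsScalarTower.algebraMap_apply F K L]
    exact σ.commutes _
  have := Polynomial.hom_eval₂ p (toL A F L) (σ : L →+* L) x
  rw [hσ, h, map_zero] at this
  exact this.symm

lemma unitsIncl_mem_intUnits_of_mem {K : Type} [Field K] [Algebra F K] [Algebra K L]
    [IsScalarTower F K L] {y : Kˣ} (hy : y ∈ intUnits A F K) :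
    unitsIncl L K y ∈ intUnits A F L := by
  refine ⟨?_, ?_⟩
  · rw [unitsIncl_coe]; exact (isInt_algebraMap_iff (A := A) (F := F) (L := L) (y : K)).2 hy.1
  · rw [← map_inv, unitsIncl_coe]
    exact (isInt_algebraMap_iff (A := A) (F := F) (L := L) ((y⁻¹ : Kˣ) : K)).2 hy.2

/-- In an unramified extension a uniformizer of `K` is a uniformizer of `L`. -/
lemma isUnif_unitsIncl {K : Type} [Field K] [Algebra F K] [Algebra K L] [IsScalarTower F K L]
    {ϖK : Kˣ} (hur : IsUnram A F L K) (hϖ : IsUnif A F K ϖK) :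
    IsUnif A F L (unitsIncl L K ϖK) := by
  refine ⟨?_, ?_, ?_⟩
  · rw [unitsIncl_coe]; exact (isInt_algebraMap_iff (A := A) (F := F) (L := L) (ϖK : K)).2 hϖ.1
  · intro h
    apply hϖ.2.1
    refine ⟨hϖ.1, ?_⟩
    have := h.2
    rw [← map_inv, unitsIncl_coe] at this
    exact (isInt_algebraMap_iff (A := A) (F := F) (L := L) _).1 this
  · intro x
    obtain ⟨y, hy⟩ := hur x
    obtain ⟨n, hn⟩ := hϖ.2.2 y
    refine ⟨n, ?_⟩
    have h2 := unitsIncl_mem_intUnits_of_mem (A := A) (F := F) (L := L) hn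
    have h3 := (intUnits A F L).mul_mem hy h2
    have : x * (unitsIncl L K y)⁻¹ * unitsIncl L K (y * ϖK ^ (-n)) = x * unitsIncl L K ϖK ^ (-n) := by
      rw [map_mul, map_zpow]
      group
    rwa [this] at h3

variable {ϖ : Lˣ}

lemma unif_not_isInt_inv (h : IsUnif A F L ϖ) : ¬ IsInt A F L ((ϖ⁻¹ : Lˣ) : L) :=
  fun h' => h.2.1 ⟨h.1, h'⟩

lemma unif_isInt_pow (h : IsUnif A F L ϖ) (n : ℕ) : IsInt A F L ((ϖ : L) ^ n) := by
  induction n with
  | zero => simpa using isInt_one A F L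
  | succ n ih => rw [pow_succ]; exact ih.mul h.1

/-- Every unit of `L` is `ϖ ^ n * u` with `u` an integral unit. -/
lemma unif_exists_eq (h : IsUnif A F L ϖ) (x : Lˣ) :
    ∃ n : ℤ, ∃ u ∈ intUnits A F L, x = ϖ ^ n * u := by
  obtain ⟨n, hn⟩ := h.2.2 x
  exact ⟨n, _, hn, by rw [mul_comm x, ← mul_assoc, ← zpow_add]; simp⟩

/-- `ϖ ^ n * u` with `n < 0` is not integral. -/
lemma unif_not_isInt_of_neg (h : IsUnif A F L ϖ) {n : ℤ} (hn : n < 0) {u : Lˣ}
    (hu : u ∈ intUnits A F L) : ¬ IsInt A F L ((ϖ ^ n * u : Lˣ) : L) := by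
  intro hx
  apply unif_not_isInt_inv h
  obtain ⟨m, rfl⟩ : ∃ m : ℕ, n = -(m + 1 : ℤ) := ⟨(-n - 1).toNat, by omega⟩
  have h1 : ((ϖ⁻¹ : Lˣ) : L) = (ϖ : L) ^ m * (((ϖ ^ (-(m + 1 : ℤ)) * u : Lˣ) : L) * ((u⁻¹ : Lˣ) : L)) := by
    rw [← Units.val_mul, ← Units.val_pow_eq_pow_val, ← Units.val_mul]
    congr 1
    rw [mul_inv_cancel_right, ← zpow_natCast, ← zpow_add]
    have : (m : ℤ) + -(m + 1 : ℤ) = -1 := by ring
    rw [this, zpow_neg_one]
  rw [h1]
  exact (unif_isInt_pow h m).mul (hx.mul hu.2)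

/-- An integral element of `Lˣ` is `ϖ ^ n * u` with `n : ℕ`. -/
lemma unif_exists_eq_of_isInt (h : IsUnif A F L ϖ) (x : Lˣ) (hx : IsInt A F L (x : L)) :
    ∃ n : ℕ, ∃ u ∈ intUnits A F L, x = ϖ ^ n * u := by
  obtain ⟨n, u, hu, rfl⟩ := unif_exists_eq h x
  rcases lt_or_ge n 0 with hn | hn
  · exact absurd hx (unif_not_isInt_of_neg h hn hu)
  · obtain ⟨m, rfl⟩ := Int.eq_ofNat_of_zero_le hn
    exact ⟨m, u, hu, by rw [zpow_natCast]⟩

/-- The integers of `L` form a valuation ring. -/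
lemma unif_isInt_or_isInt_inv (h : IsUnif A F L ϖ) (x : L) :
    IsInt A F L x ∨ IsInt A F L x⁻¹ := by
  rcases eq_or_ne x 0 with rfl | hx
  · exact Or.inl (isInt_zero A F L)
  obtain ⟨n, u, hu, hxu⟩ := unif_exists_eq h (Units.mk0 x hx)
  have hx' : x = ((ϖ ^ n * u : Lˣ) : L) := by rw [← hxu]; rfl
  rcases le_total 0 n with hn | hn
  · left
    obtain ⟨m, rfl⟩ := Int.eq_ofNat_of_zero_le hn
    rw [hx', Units.val_mul, zpow_natCast, Units.val_pow_eq_pow_val]
    exact (unif_isInt_pow h m).mul hu.1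
  · right
    obtain ⟨m, hm⟩ : ∃ m : ℕ, -n = m := Int.eq_ofNat_of_zero_le (by omega)
    have : x⁻¹ = (((ϖ ^ (m : ℤ) * u⁻¹ : Lˣ)) : L) := by
      rw [hx', ← Units.val_inv_eq_inv_val]
      congr 1
      rw [mul_inv, ← zpow_neg, hm]
    rw [this, Units.val_mul, zpow_natCast, Units.val_pow_eq_pow_val]
    exact (unif_isInt_pow h m).mul hu.2

/-- An integral element is a unit or divisible by `ϖ`. -/
lemma unif_unit_or_dvd (h : IsUnif A F L ϖ) (x : Lˣ) (hx : IsInt A F L (x : L)) :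
    x ∈ intUnits A F L ∨ ∃ b : L, IsInt A F L b ∧ (x : L) = ϖ * b := by
  obtain ⟨n, u, hu, rfl⟩ := unif_exists_eq_of_isInt h x hx
  rcases Nat.eq_zero_or_pos n with rfl | hn
  · left; simpa using hu
  · right
    obtain ⟨m, rfl⟩ : ∃ m, n = m + 1 := ⟨n - 1, by omega⟩
    refine ⟨(ϖ : L) ^ m * u, (unif_isInt_pow h m).mul hu.1, ?_⟩
    rw [Units.val_mul, Units.val_pow_eq_pow_val, pow_succ]
    ring

/-- A multiple of `ϖ` by an integral element is not an integral unit. -/
lemma unif_not_unit_of_dvd (h : IsUnif A F L ϖ) (x : Lˣ) {b : L} (hb : IsInt A F L b)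
    (hxb : (x : L) = ϖ * b) : x ∉ intUnits A F L := by
  intro hx
  apply unif_not_isInt_inv h
  have : ((ϖ⁻¹ : Lˣ) : L) = b * ((x⁻¹ : Lˣ) : L) := by
    have h1 : (x : L) * ((x⁻¹ : Lˣ) : L) = 1 := by simp
    have h2 : (ϖ : L) * ((ϖ⁻¹ : Lˣ) : L) = 1 := by simp
    have h3 : (ϖ : L) ≠ 0 := ϖ.ne_zero
    apply mul_left_cancel₀ h3
    rw [h2, ← mul_assoc, ← hxb, h1]
  rw [this]
  exact hb.mul hx.2

/-- `1 + ϖ b` is an integral unit. -/
lemma unif_one_add_mem (h : IsUnif A F L ϖ) {b : L} (hb : IsInt A F L b) (x : Lˣ)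
    (hx : (x : L) = 1 + ϖ * b) : x ∈ intUnits A F L := by
  have hxi : IsInt A F L (x : L) := by rw [hx]; exact (isInt_one A F L).add (h.1.mul hb)
  rcases unif_unit_or_dvd h x hxi with h1 | ⟨d, hd, hxd⟩
  · exact h1
  · exfalso
    -- 1 = ϖ (d - b)
    have h1 : (1 : L) = ϖ * (d - b) := by rw [mul_sub, ← hxd, hx]; ring
    have := unif_not_unit_of_dvd h 1 (hd.add hb.neg) (by simpa [sub_eq_add_neg] using h1)
    exact this (intUnits A F L).one_mem

/-- Separatedness: an element divisible by all powers of `ϖ` is zero. -/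
lemma unif_eq_zero_of_forall_dvd (h : IsUnif A F L ϖ) (x : L)
    (hx : ∀ k : ℕ, ∃ b : L, IsInt A F L b ∧ x = (ϖ : L) ^ k * b) : x = 0 := by
  by_contra hx0
  obtain ⟨n, u, hu, hxu⟩ := unif_exists_eq h (Units.mk0 x hx0)
  obtain ⟨b, hb, hxb⟩ := hx (n.toNat + 1)
  -- b = ϖ ^ (n - (n.toNat+1)) * u is not integral
  have hb0 : b ≠ 0 := by
    rintro rfl
    exact hx0 (by simpa using hxb)
  have hbu : Units.mk0 b hb0 = ϖ ^ (n - (n.toNat + 1 : ℕ)) * u := by
    have : Units.mk0 x hx0 = ϖ ^ ((n.toNat + 1 : ℕ) : ℤ) * Units.mk0 b hb0 := by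
      ext
      simp only [Units.val_mk0, Units.val_mul, zpow_natCast, Units.val_pow_eq_pow_val]
      exact hxb
    rw [this] at hxu
    rw [zpow_sub, mul_comm (ϖ ^ n), mul_assoc, ← hxu]
    group
  have hneg : n - ((n.toNat + 1 : ℕ) : ℤ) < 0 := by
    have := Int.self_le_toNat n
    push_cast
    omega
  have := unif_not_isInt_of_neg h hneg hu
  rw [← hbu] at this
  exact this hb

end Val

end Fermat.Agent.S55.Local.H294
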