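import Fermat.Agent.S55.Local.H294.UR3Faithful

/-!
# S55 layer L, piece UR3 (helper294): `UnramGradedH2Statement`

Graded step for 2-cocycles with values in the units of an unramified extension `L / K`:
* `j = 0`: reduce modulo `ϖ` to a multiplicative 2-cocycle of `Gal(L/K) ≅ Gal(l / l^G)` with values
  in `lˣ` (`l` = residue field, finite) and use `MulH2FiniteFieldStatement` (FF2);
* `j ≥ 1`: `1 + ϖ^j b ↦ b mod ϖ` turns the cocycle into an additive 2-cocycle with values in `l`,
  which is a coboundary by the explicit homotopy attached to a trace-one element.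

Main result: `unramGradedH2_of : MulH2FiniteFieldStatement → UnramGradedH2Statement`.
-/

set_option autoImplicit false
set_option linter.style.haveILetI false
set_option linter.unusedSectionVars false

namespace Fermat.Agent.S55.Local.H294

open IsLocalRing groupCohomology

section Steps

variable {A F : Type} [CommRing A] [Field F] [Algebra A F]
variable {K : Type} [Field K] [Algebra F K]
variable {L : Type} [Field L] [Algebra F L] [Algebra K L] [IsScalarTower F K L]

omit [Algebra F K] [Algebra K L] [IsScalarTower F K L] in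
/-- Elements of the ring of integers with nonzero residue are integral units. -/
lemma exists_unit_of_residue_ne_zero [IsLocalRing (intRing A F L)] (a : intRing A F L)
    (ha : residue (intRing A F L) a ≠ 0) : ∃ u : Lˣ, u ∈ intUnits A F L ∧ (u : L) = a := by
  have : IsUnit a := by
    by_contra h
    exact ha ((residue_eq_zero_iff a).2 h)
  obtain ⟨u, hu, h⟩ := (isUnit_intRing_iff a).1 this
  exact ⟨u, hu, h⟩

omit [Algebra F K] [Algebra K L] [IsScalarTower F K L] in
lemma residue_ne_zero_of_mem_intUnits [IsLocalRing (intRing A F L)] {u : Lˣ}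
    (hu : u ∈ intUnits A F L) : residue (intRing A F L) ⟨(u : L), hu.1⟩ ≠ 0 := by
  have : IsUnit (⟨(u : L), hu.1⟩ : intRing A F L) := (isUnit_intRing_iff _).2 ⟨u, hu, rfl⟩
  exact (this.map (residue (intRing A F L))).ne_zero

lemma smul_mem_intUnits (g : L ≃ₐ[K] L) {u : Lˣ} (hu : u ∈ intUnits A F L) :
    g • u ∈ intUnits A F L := by
  refine ⟨isInt_algEquiv g hu.1, ?_⟩
  have : ((g • u)⁻¹ : Lˣ) = g • u⁻¹ := by rw [smul_inv']
  rw [this]
  exact isInt_algEquiv g hu.2

/-- Rewriting the coboundary quotient. -/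
lemma quot_eq {M : Type} [CommGroup M] (c a b d : M) : c / (a / b * d) = c * b / (a * d) := by
  rw [div_mul_eq_mul_div, div_div_eq_mul_div]

variable [FiniteDimensional K L]

/-- The graded step in degree `j = m + 1 ≥ 1` (additive). -/
lemma graded_step_succ [IsLocalRing (intRing A F L)] {ϖ : Lˣ} (h : IsUnif A F L ϖ)
    (hfix : ∀ g : L ≃ₐ[K] L, g (ϖ : L) = ϖ)
    (θ : ResidueField (intRing A F L)) (hθ : ∑ g : L ≃ₐ[K] L, g • θ = 1)
    (m : ℕ) (c : (L ≃ₐ[K] L) × (L ≃ₐ[K] L) → Lˣ) (hc : IsMulCocycle₂ c)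
    (hcj : ∀ p, c p ∈ higherUnits A F L (ϖ : L) (m + 1)) :
    ∃ x : (L ≃ₐ[K] L) → Lˣ, (∀ g, x g ∈ higherUnits A F L (ϖ : L) (m + 1)) ∧
      ∀ g h, c (g, h) / (g • x h / x (g * h) * x g) ∈ higherUnits A F L (ϖ : L) (m + 1 + 1) := by
  classical
  have hb : ∀ p, ∃ b : intRing A F L, (c p : L) = 1 + (ϖ : L) ^ (m + 1) * b := fun p => by
    obtain ⟨_, b, hb, hcb⟩ := hcj p
    exact ⟨⟨b, hb⟩, hcb⟩
  choose b hb using hb
  have hϖ0 : (ϖ : L) ≠ 0 := ϖ.ne_zero
  -- cocycle condition modulo `ϖ`
  have hβ : ∀ g h₁ k : L ≃ₐ[K] L,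
      residue (intRing A F L) (b (g * h₁, k)) + residue (intRing A F L) (b (g, h₁)) =
        g • residue (intRing A F L) (b (h₁, k)) + residue (intRing A F L) (b (g, h₁ * k)) := by
    intro g h₁ k
    have h1 := congrArg Units.val (hc g h₁ k)
    simp only [Units.val_mul, AlgEquiv.smul_units_def, Units.coe_map, MonoidHom.coe_coe] at h1
    rw [hb, hb, hb, hb] at h1
    simp only [map_add, map_one, map_mul, map_pow, hfix g] at h1
    rw [← ResidueField.residue_smul, ← map_add, ← map_add, residue_eq_iff h]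
    refine ⟨unifElt h ^ m * (g • b (h₁, k) * b (g, h₁ * k) - b (g * h₁, k) * b (g, h₁)),
      Subtype.ext ?_⟩
    simp only [Subring.coe_add, Subring.coe_mul, Subring.coe_pow, AddSubgroupClass.coe_sub,
      coe_unifElt, coe_smul_intRing]
    apply mul_left_cancel₀ (pow_ne_zero (m + 1) hϖ0)
    linear_combination h1
  obtain ⟨y, hy⟩ := exists_addCoboundary_of_trace_one θ hθ
    (fun p => residue (intRing A F L) (b p)) hβ
  choose yB hyB using fun g => residue_surjective (y g)
  have hx : ∀ g, ∃ u : Lˣ, u ∈ intUnits A F L ∧ (u : L) = 1 + (ϖ : L) ^ (m + 1) * yB g := by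
    intro g
    obtain ⟨u, hu, hval⟩ := exists_unit_of_residue_ne_zero (1 + unifElt h ^ (m + 1) * yB g) (by
      have : residue (intRing A F L) (unifElt h) = 0 :=
        (residue_eq_zero_intRing_iff h _).2 ⟨1, by ring⟩
      rw [map_add, map_mul, map_pow, this, map_one]
      simp)
    exact ⟨u, hu, by rw [hval]; rfl⟩
  choose x hxU hxval using hx
  refine ⟨x, fun g => ⟨hxU g, yB g, (yB g).2, hxval g⟩, fun g h' => ?_⟩
  obtain ⟨e₁, he₁⟩ : ∃ e₁ : intRing A F L,
      g • yB h' - yB (g * h') + yB g = b (g, h') + unifElt h * e₁ := by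
    rw [← residue_eq_iff h]
    simp only [map_sub, map_add, ResidueField.residue_smul, hyB]
    exact hy g h'
  have he₁L := congrArg Subtype.val he₁
  simp only [Subring.coe_add, Subring.coe_mul, AddSubgroupClass.coe_sub, coe_unifElt,
    coe_smul_intRing] at he₁L
  have hD : g • x h' * x g ∈ intUnits A F L :=
    (intUnits A F L).mul_mem (smul_mem_intUnits g (hxU h')) (hxU g)
  rw [quot_eq]
  refine ⟨(intUnits A F L).div_mem ((intUnits A F L).mul_mem (hcj _).1 (hxU _)) hD, ?_⟩
  refine ⟨((ϖ : L) ^ m * ((b (g, h') : L) * yB (g * h') - g (yB h') * yB g) - e₁) *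
    (((g • x h' * x g)⁻¹ : Lˣ) : L), ?_, ?_⟩
  · refine IsInt.mul ?_ hD.2
    have h1 : IsInt A F L ((ϖ : L) ^ m * ((b (g, h') : L) * yB (g * h') - g (yB h') * yB g)) := by
      refine (unif_isInt_pow h m).mul ?_
      have := ((b (g, h')).2.mul (yB (g * h')).2).add
        ((isInt_algEquiv g (yB h').2).mul (yB g).2).neg
      simpa [sub_eq_add_neg] using this
    simpa [sub_eq_add_neg] using h1.add e₁.2.neg
  · have hDne : (((g • x h' * x g : Lˣ)) : L) ≠ 0 := Units.ne_zero _
    rw [Units.val_div_eq_div_val, div_eq_iff hDne, Units.val_inv_eq_inv_val, add_mul,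
      mul_assoc, mul_assoc, inv_mul_cancel₀ hDne, one_mul, mul_one]
    simp only [Units.val_mul, AlgEquiv.smul_units_def, Units.coe_map, MonoidHom.coe_coe]
    rw [hb, hxval, hxval, hxval]
    simp only [map_add, map_one, map_mul, map_pow, hfix g]
    linear_combination (-(ϖ : L) ^ (m + 1)) * he₁L

/-- The graded step in degree `j = 0` (multiplicative), from FF2. -/
lemma graded_step_zero (hFF2 : MulH2FiniteFieldStatement) [IsLocalRing (intRing A F L)]
    [Finite (ResidueField (intRing A F L))]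
    [FaithfulSMul (L ≃ₐ[K] L) (ResidueField (intRing A F L))] {ϖ : Lˣ} (h : IsUnif A F L ϖ)
    (c : (L ≃ₐ[K] L) × (L ≃ₐ[K] L) → Lˣ) (hc : IsMulCocycle₂ c)
    (hcj : ∀ p, c p ∈ intUnits A F L) :
    ∃ x : (L ≃ₐ[K] L) → Lˣ, (∀ g, x g ∈ intUnits A F L) ∧
      ∀ g h, c (g, h) / (g • x h / x (g * h) * x g) ∈ higherUnits A F L (ϖ : L) 1 := by
  classical
  let B := intRing A F L
  let l := ResidueField B
  let G := L ≃ₐ[K] L
  let k := FixedPoints.subfield G l
  let e : G ≃* (l ≃ₐ[k] l) := FixedPoints.toAlgAutMulEquiv G l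
  have he : ∀ (g : G) (z : l), (e g) z = g • z := fun _ _ => rfl
  let cB : G × G → B := fun p => ⟨(c p : L), (hcj p).1⟩
  have hcB : ∀ p, residue B (cB p) ≠ 0 := fun p => residue_ne_zero_of_mem_intUnits (hcj p)
  -- cocycle identity in `B`
  have hcB_mul : ∀ g h₁ k₁ : G,
      cB (g * h₁, k₁) * cB (g, h₁) = g • cB (h₁, k₁) * cB (g, h₁ * k₁) := by
    intro g h₁ k₁
    apply Subtype.ext
    have h1 := congrArg Units.val (hc g h₁ k₁)
    simp only [Units.val_mul, AlgEquiv.smul_units_def, Units.coe_map, MonoidHom.coe_coe] at h1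
    exact h1
  let c' : (l ≃ₐ[k] l) × (l ≃ₐ[k] l) → lˣ :=
    fun q => Units.mk0 (residue B (cB (e.symm q.1, e.symm q.2))) (hcB _)
  have hc' : IsMulCocycle₂ c' := by
    intro γ δ ε
    apply Units.ext
    simp only [c', Units.val_mul, Units.val_mk0, AlgEquiv.smul_units_def, Units.coe_map,
      MonoidHom.coe_coe, map_mul]
    have h1 := congrArg (residue B) (hcB_mul (e.symm γ) (e.symm δ) (e.symm ε))
    rw [map_mul, map_mul, ResidueField.residue_smul, ← he, MulEquiv.apply_symm_apply] at h1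
    exact h1
  haveI : Finite k := Finite.of_injective (fun z : k => (z : l)) Subtype.val_injective
  obtain ⟨x', hx'⟩ := hFF2 k l c' hc'
  choose xB hxB using fun g : G => residue_surjective ((x' (e g) : lˣ) : l)
  have hxB0 : ∀ g, residue B (xB g) ≠ 0 := fun g => by rw [hxB]; exact Units.ne_zero _
  choose x hxU hxval using fun g => exists_unit_of_residue_ne_zero (xB g) (hxB0 g)
  refine ⟨x, hxU, fun g h' => ?_⟩
  -- the coboundary relation in `l`
  have h2 := congrArg Units.val (hx' (e g) (e h'))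
  simp only [c', Units.val_mul, Units.val_div_eq_div_val, Units.val_mk0,
    AlgEquiv.smul_units_def, Units.coe_map, MonoidHom.coe_coe, MulEquiv.symm_apply_apply,
    ← map_mul] at h2
  rw [← hxB, ← hxB, ← hxB, he, ← ResidueField.residue_smul,
    div_mul_eq_mul_div, div_eq_iff (hxB0 _), ← map_mul, ← map_mul, residue_eq_iff h] at h2
  obtain ⟨e₁, he₁⟩ := h2
  have he₁L := congrArg Subtype.val he₁
  simp only [Subring.coe_add, Subring.coe_mul, coe_unifElt] at he₁L
  have hD : g • x h' * x g ∈ intUnits A F L :=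
    (intUnits A F L).mul_mem (smul_mem_intUnits g (hxU h')) (hxU g)
  rw [quot_eq]
  refine ⟨(intUnits A F L).div_mem ((intUnits A F L).mul_mem (hcj _) (hxU _)) hD, ?_⟩
  refine ⟨-e₁ * (((g • x h' * x g)⁻¹ : Lˣ) : L), ?_, ?_⟩
  · exact IsInt.mul e₁.2.neg hD.2
  · have hDne : (((g • x h' * x g : Lˣ)) : L) ≠ 0 := Units.ne_zero _
    rw [Units.val_div_eq_div_val, div_eq_iff hDne, Units.val_inv_eq_inv_val, add_mul,
      mul_assoc, mul_assoc, inv_mul_cancel₀ hDne, one_mul, mul_one]
    simp only [Units.val_mul, AlgEquiv.smul_units_def, Units.coe_map, MonoidHom.coe_coe]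
    rw [hxval, hxval, hxval]
    simp only [cB] at he₁L
    linear_combination -he₁L

end Steps

/-- **UR3**: the graded step for 2-cocycles with values in the units of an unramified
extension, assuming FF2 (`H²` of finite fields vanishes). -/
theorem unramGradedH2_of (hFF2 : MulH2FiniteFieldStatement) : UnramGradedH2Statement := by
  intro A F _ _ _ _ _ _ _ _ _ K _ _ _ L _ _ _ _ _ _ ϖK hur hϖ j c hc hcj
  have hL : IsUnif A F L (unitsIncl L K ϖK) := isUnif_unitsIncl hur hϖ
  haveI : FiniteDimensional F L := FiniteDimensional.trans F K L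
  haveI := isLocalRing_intRing hL
  haveI := finite_residueField_intRing A F L
  have hfix : ∀ g : L ≃ₐ[K] L,
      g ((unitsIncl L K ϖK : Lˣ) : L) = ((unitsIncl L K ϖK : Lˣ) : L) := fun g => g.commutes _
  haveI := faithfulSMul_residueField hL hfix
  rcases Nat.eq_zero_or_pos j with rfl | hj
  · obtain ⟨x, hx, hxc⟩ := graded_step_zero hFF2 hL c hc (fun p => (hcj p).1)
    refine ⟨x, fun g => ⟨hx g, (x g : L) - 1, ?_, by simp⟩, hxc⟩
    simpa [sub_eq_add_neg] using (hx g).1.add (isInt_one A F L).neg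
  · obtain ⟨m, rfl⟩ : ∃ m, j = m + 1 := ⟨j - 1, by omega⟩
    obtain ⟨θ, hθ⟩ := exists_sum_smul_eq_one (L ≃ₐ[K] L) (ResidueField (intRing A F L))
    exact graded_step_succ hL hfix θ hθ m c hc hcj

end Fermat.Agent.S55.Local.H294
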