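import Fermat.Agent.S55.Local.H294.UR3Ring

/-!
# S55 layer L, piece UR3 (helper294): the Galois group acts faithfully on the residue field

If `ϖ` is a uniformizer of `L` fixed by `g ∈ Gal(L/K)` (e.g. a uniformizer of `K`, `L/K`
unramified) and `g` acts trivially on the (finite) residue field of `L`, then `g = 1`.
Proof: `δ = g - 1` maps `O_L` into `ϖ^k O_L` for all `k` (induction on `k`, using that the residue
field is perfect: `b = c^p + ϖ d`), and `⋂ ϖ^k O_L = 0`.

Consequence: a trace-one element of the residue field.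
-/

set_option autoImplicit false
set_option linter.style.haveILetI false
set_option linter.unusedSectionVars false

namespace Fermat.Agent.S55.Local.H294

open Polynomial IsLocalRing

section Faithful

variable {A F : Type} [CommRing A] [Field F] [Algebra A F]
variable {K : Type} [Field K] [Algebra F K]
variable {L : Type} [Field L] [Algebra F L] [Algebra K L] [IsScalarTower F K L]
variable {ϖ : Lˣ}

lemma smul_unifElt (h : IsUnif A F L ϖ) (g : L ≃ₐ[K] L) (hg : g (ϖ : L) = ϖ) :
    g • unifElt h = unifElt h := Subtype.ext hg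

/-- Key induction: if `g` is trivial on the residue field then `g b ≡ b mod ϖ^k` for all `k`. -/
lemma exists_smul_eq_add_pow [IsLocalRing (intRing A F L)]
    [Finite (ResidueField (intRing A F L))] (h : IsUnif A F L ϖ) (g : L ≃ₐ[K] L)
    (hgϖ : g (ϖ : L) = ϖ)
    (hg : ∀ b : intRing A F L, residue (intRing A F L) (g • b) = residue (intRing A F L) b)
    (k : ℕ) : ∀ b : intRing A F L, ∃ d : intRing A F L, g • b = b + unifElt h ^ (k + 1) * d := by
  set B := intRing A F L
  set l := ResidueField B
  obtain ⟨p, hp⟩ := CharP.exists l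
  haveI := hp
  have hpp : p.Prime := CharP.char_is_prime l p
  haveI : Fact p.Prime := ⟨hpp⟩
  -- `p` is divisible by `ϖ`
  obtain ⟨c₀, hc₀⟩ : ∃ c₀ : B, (p : B) = unifElt h * c₀ := by
    rw [← residue_eq_zero_intRing_iff h, map_natCast]
    exact CharP.cast_eq_zero l p
  -- Frobenius is surjective on `l`
  have hfrob : Function.Surjective (frobenius l p) :=
    Finite.injective_iff_surjective.1 (frobenius_inj l p)
  induction k with
  | zero =>
    intro b
    obtain ⟨d, hd⟩ := (residue_eq_iff h _ _).1 (hg b)
    exact ⟨d, by rw [hd]; ring⟩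
  | succ k ih =>
    intro b
    obtain ⟨y, hy⟩ := hfrob (residue B b)
    obtain ⟨c, rfl⟩ := residue_surjective y
    have h1 : residue B b = residue B (c ^ p) := by
      rw [map_pow, ← hy]; rfl
    obtain ⟨d₁, hd₁⟩ := (residue_eq_iff h _ _).1 h1
    obtain ⟨c', hc'⟩ := ih c
    obtain ⟨d', hd'⟩ := ih d₁
    obtain ⟨r, hr⟩ := exists_add_pow_prime_eq hpp c (unifElt h ^ (k + 1) * c')
    obtain ⟨m, hm⟩ : ∃ m, (k + 1) * p = k + 1 + 1 + m := by
      have := hpp.two_le
      refine ⟨(k + 1) * p - (k + 1 + 1), ?_⟩
      have : (k + 1) * 2 ≤ (k + 1) * p := Nat.mul_le_mul_left _ this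
      omega
    refine ⟨unifElt h ^ m * c' ^ p + c₀ * c * c' * r + d', ?_⟩
    have hgb : g • b = (g • c) ^ p + unifElt h * (g • d₁) := by
      rw [hd₁, smul_add, smul_mul', smul_pow', smul_unifElt h g hgϖ]
    rw [hgb, hc', hd', hr, hd₁, mul_pow, ← pow_mul, hm, hc₀]
    ring

/-- An automorphism fixing a uniformizer and acting trivially on the residue field is trivial. -/
lemma eq_one_of_residue_fixed [IsLocalRing (intRing A F L)]
    [Finite (ResidueField (intRing A F L))] (h : IsUnif A F L ϖ) (g : L ≃ₐ[K] L)
    (hgϖ : g (ϖ : L) = ϖ)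
    (hg : ∀ b : intRing A F L, residue (intRing A F L) (g • b) = residue (intRing A F L) b) :
    g = 1 := by
  have hint : ∀ x : L, IsInt A F L x → g x = x := by
    intro x hx
    have : g x - x = 0 := by
      apply unif_eq_zero_of_forall_dvd h
      intro k
      rcases Nat.eq_zero_or_pos k with rfl | hk
      · exact ⟨g x - x, by simpa [sub_eq_add_neg] using (isInt_algEquiv g hx).add hx.neg,
          by simp⟩
      · obtain ⟨k', rfl⟩ : ∃ k', k = k' + 1 := ⟨k - 1, by omega⟩
        obtain ⟨d, hd⟩ := exists_smul_eq_add_pow h g hgϖ hg k' ⟨x, hx⟩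
        refine ⟨d, d.2, ?_⟩
        have := congrArg Subtype.val hd
        simp only [coe_smul_intRing, Subring.coe_add, Subring.coe_mul, Subring.coe_pow,
          coe_unifElt] at this
        rw [this]; ring
    exact sub_eq_zero.1 this
  ext x
  rcases unif_isInt_or_isInt_inv h x with hx | hx
  · exact hint x hx
  · have := hint _ hx
    rw [map_inv₀] at this
    exact inv_injective this

end Faithful

section Main

variable {A F : Type} [CommRing A] [Field F] [Algebra A F]
variable {K : Type} [Field K] [Algebra F K]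
variable {L : Type} [Field L] [Algebra F L] [Algebra K L] [IsScalarTower F K L]

/-- In the unramified situation the Galois group acts faithfully on the residue field. -/
lemma faithfulSMul_residueField [IsLocalRing (intRing A F L)]
    [Finite (ResidueField (intRing A F L))] {ϖ : Lˣ} (h : IsUnif A F L ϖ)
    (hfix : ∀ g : L ≃ₐ[K] L, g (ϖ : L) = ϖ) :
    FaithfulSMul (L ≃ₐ[K] L) (ResidueField (intRing A F L)) := by
  refine ⟨fun {g₁ g₂} hg => ?_⟩
  have : g₂⁻¹ * g₁ = 1 := by
    apply eq_one_of_residue_fixed h _ (hfix _)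
    intro b
    rw [ResidueField.residue_smul, mul_smul, hg, ← mul_smul, inv_mul_cancel, one_smul]
  rw [← mul_right_inj g₂⁻¹, this, inv_mul_cancel]

/-- A trace-one element in a field with a faithful action of a finite group. -/
lemma exists_sum_smul_eq_one (G l : Type) [Group G] [Fintype G] [Field l]
    [MulSemiringAction G l] [FaithfulSMul G l] : ∃ θ : l, ∑ g : G, g • θ = 1 := by
  obtain ⟨θ, hθ⟩ := Algebra.trace_surjective (FixedPoints.subfield G l) l 1
  refine ⟨θ, ?_⟩
  have h1 := trace_eq_sum_automorphisms (K := FixedPoints.subfield G l) (L := l) θ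
  rw [hθ, map_one] at h1
  rw [h1]
  exact Fintype.sum_equiv (FixedPoints.toAlgAutMulEquiv G l).toEquiv _ _ (fun g => rfl)

/-- Additive `H²` vanishes in the presence of a trace-one element. -/
lemma exists_addCoboundary_of_trace_one {G R : Type} [Group G] [Fintype G] [CommRing R]
    [MulSemiringAction G R] (θ : R) (hθ : ∑ g : G, g • θ = 1) (β : G × G → R)
    (hβ : ∀ g h k : G, β (g * h, k) + β (g, h) = g • β (h, k) + β (g, h * k)) :
    ∃ y : G → R, ∀ g h, g • y h - y (g * h) + y g = β (g, h) := by
  refine ⟨fun g => ∑ k : G, β (g, k) * (g * k) • θ, fun g h => ?_⟩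
  have h3 : ∑ k : G, β (g, k) * (g * k) • θ = ∑ k : G, β (g, h * k) * (g * h * k) • θ := by
    refine (Fintype.sum_equiv (Equiv.mulLeft h) _ _ (fun k => ?_)).symm
    simp [mul_assoc]
  have h4 : ∑ k : G, (g * h * k) • θ = 1 := by
    rw [← hθ]
    exact Fintype.sum_equiv (Equiv.mulLeft (g * h)) _ _ (fun k => rfl)
  have h1 : g • ∑ k : G, β (h, k) * (h * k) • θ = ∑ k : G, g • β (h, k) * (g * h * k) • θ := by
    rw [Finset.smul_sum]
    refine Finset.sum_congr rfl (fun k _ => ?_)
    rw [smul_mul', ← mul_smul, mul_assoc]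
  simp only []
  rw [h1, h3, ← Finset.sum_sub_distrib, ← Finset.sum_add_distrib]
  calc ∑ k : G, (g • β (h, k) * (g * h * k) • θ - β (g * h, k) * (g * h * k) • θ
        + β (g, h * k) * (g * h * k) • θ)
      = ∑ k : G, β (g, h) * (g * h * k) • θ := by
        refine Finset.sum_congr rfl (fun k _ => ?_)
        have := hβ g h k
        linear_combination (-((g * h * k) • θ)) * this
    _ = β (g, h) := by rw [← Finset.mul_sum, h4, mul_one]

end Main

end Fermat.Agent.S55.Local.H294
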