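import Fermat.Agent.S55.Local.H294.UR3Val

/-!
# S55 layer L, piece UR3 (helper294): the ring of integers as a local ring, its residue field

`intRing A F L : Subring L` is the ring of elements integral over `A`.  Given a uniformizer it is
a local ring with maximal ideal generated by the uniformizer; it is a finite `A`-module, so its
residue field is finite; the Galois group acts on it.
-/

set_option autoImplicit false
set_option linter.style.haveILetI false
set_option linter.unusedSectionVars false

namespace Fermat.Agent.S55.Local.H294

open Polynomial IsLocalRing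

section Ring

variable (A F : Type) [CommRing A] [Field F] [Algebra A F]
variable (L : Type) [Field L] [Algebra F L]

/-- The ring of integers of `L` (elements integral over `A`) as a subring. -/
def intRing : Subring L where
  carrier := {x | IsInt A F L x}
  mul_mem' := fun hx hy => hx.mul hy
  add_mem' := fun hx hy => hx.add hy
  one_mem' := isInt_one A F L
  zero_mem' := isInt_zero A F L
  neg_mem' := fun hx => hx.neg

variable {A F L}

lemma mem_intRing {x : L} : x ∈ intRing A F L ↔ IsInt A F L x := Iff.rfl

lemma isInt_coe (b : intRing A F L) : IsInt A F L (b : L) := b.2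

instance instIsInvariantSubring_intRing (K : Type) [Field K] [Algebra F K] [Algebra K L]
    [IsScalarTower F K L] : IsInvariantSubring (L ≃ₐ[K] L) (intRing A F L) where
  smul_mem g _ hx := isInt_algEquiv g hx

lemma coe_smul_intRing {K : Type} [Field K] [Algebra F K] [Algebra K L]
    [IsScalarTower F K L] (g : L ≃ₐ[K] L) (b : intRing A F L) :
    ((g • b : intRing A F L) : L) = g (b : L) := rfl

noncomputable instance instAlgebra_intRing : Algebra A (intRing A F L) :=
  ((toL A F L).codRestrict (intRing A F L) (isInt_toL A F L)).toAlgebra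

lemma coe_algebraMap_intRing (a : A) :
    ((algebraMap A (intRing A F L) a : intRing A F L) : L) = toL A F L a := rfl

/-- Units of the ring of integers are the integral units. -/
lemma isUnit_intRing_iff (b : intRing A F L) :
    IsUnit b ↔ ∃ u ∈ intUnits A F L, (u : L) = b := by
  constructor
  · rintro ⟨u, rfl⟩
    refine ⟨Units.map (intRing A F L).subtype.toMonoidHom u, ⟨?_, ?_⟩, rfl⟩
    · exact (u : intRing A F L).2
    · rw [← map_inv]; exact ((u⁻¹ : (intRing A F L)ˣ) : intRing A F L).2
  · rintro ⟨u, hu, hub⟩
    refine IsUnit.of_mul_eq_one (⟨((u⁻¹ : Lˣ) : L), hu.2⟩ : intRing A F L) ?_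
    apply Subtype.ext
    simp [← hub]

variable {ϖ : Lˣ}

/-- Given a uniformizer, the ring of integers is local. -/
lemma isLocalRing_intRing (h : IsUnif A F L ϖ) : IsLocalRing (intRing A F L) := by
  refine IsLocalRing.of_isUnit_or_isUnit_one_sub_self (fun a => ?_)
  rcases eq_or_ne (a : L) 0 with ha | ha
  · right
    have : a = 0 := Subtype.ext ha
    rw [this, sub_zero]; exact isUnit_one
  · rcases unif_unit_or_dvd h (Units.mk0 (a : L) ha) a.2 with h1 | ⟨b, hb, hab⟩
    · left
      exact (isUnit_intRing_iff a).2 ⟨_, h1, rfl⟩
    · right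
      have h1 : (1 : L) - a ≠ 0 := by
        intro h0
        have : (1 : L) = ϖ * b := by
          rw [← hab]; simp only [Units.val_mk0]; exact (sub_eq_zero.1 h0)
        exact unif_not_unit_of_dvd h 1 hb (by simpa using this) (intUnits A F L).one_mem
      refine (isUnit_intRing_iff (1 - a)).2 ⟨Units.mk0 ((1 : L) - a) h1, ?_, rfl⟩
      refine unif_one_add_mem h hb.neg _ ?_
      simp only [Units.val_mk0] at hab ⊢
      rw [hab]; ring

/-- The uniformizer as an element of the ring of integers. -/
def unifElt (h : IsUnif A F L ϖ) : intRing A F L := ⟨(ϖ : L), h.1⟩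

@[simp] lemma coe_unifElt (h : IsUnif A F L ϖ) : ((unifElt h : intRing A F L) : L) = ϖ := rfl

lemma mem_maximalIdeal_intRing_iff [IsLocalRing (intRing A F L)] (h : IsUnif A F L ϖ)
    (a : intRing A F L) :
    a ∈ maximalIdeal (intRing A F L) ↔ ∃ b : intRing A F L, a = unifElt h * b := by
  rw [mem_maximalIdeal, mem_nonunits_iff]
  constructor
  · intro ha
    rcases eq_or_ne (a : L) 0 with ha0 | ha0
    · exact ⟨0, by rw [mul_zero]; exact Subtype.ext ha0⟩
    rcases unif_unit_or_dvd h (Units.mk0 (a : L) ha0) a.2 with h1 | ⟨b, hb, hab⟩
    · exact absurd ((isUnit_intRing_iff a).2 ⟨_, h1, rfl⟩) ha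
    · exact ⟨⟨b, hb⟩, Subtype.ext (by simpa using hab)⟩
  · rintro ⟨b, rfl⟩ hu
    obtain ⟨u, hu, hub⟩ := (isUnit_intRing_iff _).1 hu
    refine unif_not_unit_of_dvd h u b.2 ?_ hu
    rw [hub]; rfl

lemma residue_eq_zero_intRing_iff [IsLocalRing (intRing A F L)] (h : IsUnif A F L ϖ)
    (a : intRing A F L) :
    residue (intRing A F L) a = 0 ↔ ∃ b : intRing A F L, a = unifElt h * b := by
  rw [residue_eq_zero_iff, mem_maximalIdeal_intRing_iff h]

lemma residue_eq_iff [IsLocalRing (intRing A F L)] (h : IsUnif A F L ϖ)
    (a a' : intRing A F L) :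
    residue (intRing A F L) a = residue (intRing A F L) a' ↔
      ∃ b : intRing A F L, a = a' + unifElt h * b := by
  rw [← sub_eq_zero, ← map_sub, residue_eq_zero_intRing_iff h]
  constructor
  · rintro ⟨b, hb⟩; exact ⟨b, by rw [← hb]; ring⟩
  · rintro ⟨b, hb⟩; exact ⟨b, by rw [hb]; ring⟩

end Ring

section Finite

variable (A F : Type) [CommRing A] [IsDomain A] [IsDiscreteValuationRing A]
  [Field F] [CharZero F] [Algebra A F] [IsFractionRing A F]
variable (L : Type) [Field L] [Algebra F L] [FiniteDimensional F L]

/-- The ring of integers is a finite `A`-module. -/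
lemma finite_intRing : Module.Finite A (intRing A F L) := by
  letI : Algebra A L := (toL A F L).toAlgebra
  haveI : IsScalarTower A F L := IsScalarTower.of_algebraMap_eq (fun _ => rfl)
  haveI : Module.Finite A (integralClosure A L) :=
    IsIntegralClosure.finite A F L (integralClosure A L)
  let f : integralClosure A L →ₗ[A] intRing A F L :=
    { toFun := fun x => ⟨x.1, x.2⟩
      map_add' := fun _ _ => rfl
      map_smul' := fun a x => by
        apply Subtype.ext
        simp only [RingHom.id_apply]
        rw [Algebra.smul_def, Algebra.smul_def]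
        rfl }
  exact Module.Finite.of_surjective f (fun y => ⟨⟨y.1, y.2⟩, rfl⟩)

lemma isLocalHom_algebraMap_intRing : IsLocalHom (algebraMap A (intRing A F L)) := by
  apply RingHom.IsIntegral.isLocalHom
  · intro b
    obtain ⟨p, hp, h⟩ := b.2
    refine ⟨p, hp, ?_⟩
    apply Subtype.ext
    have := Polynomial.hom_eval₂ p (algebraMap A (intRing A F L)) (intRing A F L).subtype b
    rw [ZeroMemClass.coe_zero, ← h]
    exact this
  · intro a a' h
    have h1 : toL A F L a = toL A F L a' := congrArg Subtype.val h
    simp only [toL_apply] at h1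
    exact IsFractionRing.injective A F ((algebraMap F L).injective h1)

/-- The residue field of the ring of integers is finite. -/
lemma finite_residueField_intRing [IsLocalRing (intRing A F L)]
    [Finite (IsLocalRing.ResidueField A)] : Finite (IsLocalRing.ResidueField (intRing A F L)) := by
  haveI := finite_intRing A F L
  haveI := isLocalHom_algebraMap_intRing A F L
  exact IsLocalRing.ResidueField.finite_of_finite (R := A) inferInstance

end Finite

end Fermat.Agent.S55.Local.H294
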